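/-
Fermat/Agent/Jac/P1Coh76/KerModel.lean  (helper76)

JAC brick A1-gamma, layer 1: the abstract "kernel model".

Given a linear map `d : M → N` together with
* a retraction datum `p ∘ i = id` of `M` into a module `F` (coordinates on `M`),
* a retraction datum `p' ∘ i' = id` of `N` into a module `G` (coordinates on `N`),
* a retraction datum `ρ ∘ ι = id` of a module `P` into `F` (a "truncation" of `F`),
* a *bound*: `(1 - ι ρ) ∘ i = Ψ ∘ d` for some `Ψ : N → F`
  (on `ker d` the coordinates are "truncated"),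
the kernel of `d` is identified with the common kernel of the two maps
`Φ₁ = (1 - i p) ι : P → F` and `Φ₂ = i' d p ι : P → G`, via `j = ρ i` and `π = p ι`.
Since all hypotheses are identities between linear maps, the same holds after every base change.
-/
import Mathlib

set_option autoImplicit false

open TensorProduct

namespace Fermat.Agent.Jac.P1Coh76.KerModel

section Abstract

variable {B : Type*} [CommRing B]
  {M N : Type*} [AddCommGroup M] [AddCommGroup N] [Module B M] [Module B N]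

/-- The data of a kernel model for `d : M → N`, with coordinate modules `F`, `G` and truncated
coordinate module `P`. -/
structure Data (d : M →ₗ[B] N) (F G P : Type*) [AddCommGroup F] [AddCommGroup G] [AddCommGroup P]
    [Module B F] [Module B G] [Module B P] where
  /-- coordinates on `M` -/
  i : M →ₗ[B] F
  /-- retraction of the coordinates on `M` -/
  p : F →ₗ[B] M
  p_i : p ∘ₗ i = LinearMap.id
  /-- coordinates on `N` -/
  i' : N →ₗ[B] G
  /-- retraction of the coordinates on `N` -/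
  p' : G →ₗ[B] N
  p'_i' : p' ∘ₗ i' = LinearMap.id
  /-- inclusion of the truncated coordinates -/
  ι : P →ₗ[B] F
  /-- truncation -/
  ρ : F →ₗ[B] P
  ρ_ι : ρ ∘ₗ ι = LinearMap.id
  /-- the map witnessing the bound -/
  Ψ : N →ₗ[B] F
  bound : (LinearMap.id - ι ∘ₗ ρ) ∘ₗ i = Ψ ∘ₗ d

namespace Data

variable {d : M →ₗ[B] N} {F G P : Type*} [AddCommGroup F] [AddCommGroup G] [AddCommGroup P]
    [Module B F] [Module B G] [Module B P] (D : Data d F G P)

/-- First test map: `y ↦ ι y - i (p (ι y))`, vanishing iff `ι y` lies in the image of `i`. -/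
def Φ₁ : P →ₗ[B] F := (LinearMap.id - D.i ∘ₗ D.p) ∘ₗ D.ι

/-- Second test map: `y ↦ i' (d (p (ι y)))`. -/
def Φ₂ : P →ₗ[B] G := D.i' ∘ₗ d ∘ₗ D.p ∘ₗ D.ι

/-- `M → P`: truncated coordinates. -/
def j : M →ₗ[B] P := D.ρ ∘ₗ D.i

/-- `P → M`. -/
def π : P →ₗ[B] M := D.p ∘ₗ D.ι

theorem p_i_apply (x : M) : D.p (D.i x) = x := LinearMap.congr_fun D.p_i x

theorem p'_i'_apply (x : N) : D.p' (D.i' x) = x := LinearMap.congr_fun D.p'_i' x

theorem ρ_ι_apply (x : P) : D.ρ (D.ι x) = x := LinearMap.congr_fun D.ρ_ι x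

theorem bound_apply (x : M) : D.i x - D.ι (D.ρ (D.i x)) = D.Ψ (d x) := by
  have := LinearMap.congr_fun D.bound x
  simpa using this

theorem ι_j_of_mem {x : M} (hx : d x = 0) : D.ι (D.j x) = D.i x := by
  have h := D.bound_apply x
  rw [hx, map_zero, sub_eq_zero] at h
  exact h.symm

theorem π_j_of_mem {x : M} (hx : d x = 0) : D.π (D.j x) = x := by
  change D.p (D.ι (D.j x)) = x
  rw [D.ι_j_of_mem hx, D.p_i_apply]

theorem Φ₁_j_of_mem {x : M} (hx : d x = 0) : D.Φ₁ (D.j x) = 0 := by
  change D.ι (D.j x) - D.i (D.p (D.ι (D.j x))) = 0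
  rw [D.ι_j_of_mem hx, D.p_i_apply, sub_self]

theorem Φ₂_j_of_mem {x : M} (hx : d x = 0) : D.Φ₂ (D.j x) = 0 := by
  change D.i' (d (D.p (D.ι (D.j x)))) = 0
  rw [D.ι_j_of_mem hx, D.p_i_apply, hx, map_zero]

theorem d_π_of_mem {y : P} (h2 : D.Φ₂ y = 0) : d (D.π y) = 0 := by
  have : D.p' (D.Φ₂ y) = d (D.π y) := D.p'_i'_apply _
  rw [← this, h2, map_zero]

theorem j_π_of_mem {y : P} (h1 : D.Φ₁ y = 0) : D.j (D.π y) = y := by
  have h : D.ι y - D.i (D.p (D.ι y)) = 0 := h1
  rw [sub_eq_zero] at h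
  change D.ρ (D.i (D.p (D.ι y))) = y
  rw [← h, D.ρ_ι_apply]

end Data

end Abstract

section BaseChange

variable {A : Type*} [CommRing A]
  {M N : Type*} [AddCommGroup M] [AddCommGroup N] [Module A M] [Module A N]
  {d : M →ₗ[A] N} {F G P : Type*} [AddCommGroup F] [AddCommGroup G] [AddCommGroup P]
  [Module A F] [Module A G] [Module A P]

/-- Base change of a kernel model. -/
def Data.baseChange (D : Data d F G P) (A' : Type*) [CommRing A'] [Algebra A A'] :
    Data (d.baseChange A') (A' ⊗[A] F) (A' ⊗[A] G) (A' ⊗[A] P) where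
  i := D.i.baseChange A'
  p := D.p.baseChange A'
  p_i := by rw [← LinearMap.baseChange_comp, D.p_i, LinearMap.baseChange_id]
  i' := D.i'.baseChange A'
  p' := D.p'.baseChange A'
  p'_i' := by rw [← LinearMap.baseChange_comp, D.p'_i', LinearMap.baseChange_id]
  ι := D.ι.baseChange A'
  ρ := D.ρ.baseChange A'
  ρ_ι := by rw [← LinearMap.baseChange_comp, D.ρ_ι, LinearMap.baseChange_id]
  Ψ := D.Ψ.baseChange A'
  bound := by
    have h : ((LinearMap.id - D.ι ∘ₗ D.ρ) ∘ₗ D.i).baseChange A' = (D.Ψ ∘ₗ d).baseChange A' := by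
      rw [D.bound]
    simpa only [LinearMap.baseChange_comp, LinearMap.baseChange_sub, LinearMap.baseChange_id]
      using h

variable (D : Data d F G P) (A' : Type*) [CommRing A'] [Algebra A A']

theorem Data.baseChange_Φ₁ : (D.baseChange A').Φ₁ = D.Φ₁.baseChange A' := by
  unfold Data.Φ₁
  simp only [Data.baseChange, LinearMap.baseChange_comp, LinearMap.baseChange_sub,
    LinearMap.baseChange_id]

theorem Data.baseChange_Φ₂ : (D.baseChange A').Φ₂ = D.Φ₂.baseChange A' := by
  unfold Data.Φ₂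
  simp only [Data.baseChange, LinearMap.baseChange_comp]

theorem Data.baseChange_j : (D.baseChange A').j = D.j.baseChange A' := by
  unfold Data.j
  simp only [Data.baseChange, LinearMap.baseChange_comp]

theorem Data.baseChange_π : (D.baseChange A').π = D.π.baseChange A' := by
  unfold Data.π
  simp only [Data.baseChange, LinearMap.baseChange_comp]

/-- **Universal kernel model**: after every base change `A → A'`, `j ⊗ A'` maps the kernel of
`d ⊗ A'` into the common kernel of `Φ₁ ⊗ A'`, `Φ₂ ⊗ A'`, with left inverse `π ⊗ A'`. -/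
theorem Data.baseChange_j_of_mem {x : A' ⊗[A] M} (hx : d.baseChange A' x = 0) :
    D.Φ₁.baseChange A' (D.j.baseChange A' x) = 0 ∧
    D.Φ₂.baseChange A' (D.j.baseChange A' x) = 0 ∧
    D.π.baseChange A' (D.j.baseChange A' x) = x := by
  rw [← D.baseChange_Φ₁, ← D.baseChange_Φ₂, ← D.baseChange_j, ← D.baseChange_π]
  exact ⟨(D.baseChange A').Φ₁_j_of_mem hx, (D.baseChange A').Φ₂_j_of_mem hx,
    (D.baseChange A').π_j_of_mem hx⟩

/-- **Universal kernel model**, converse direction. -/
theorem Data.baseChange_π_of_mem {y : A' ⊗[A] P} (h1 : D.Φ₁.baseChange A' y = 0)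
    (h2 : D.Φ₂.baseChange A' y = 0) :
    d.baseChange A' (D.π.baseChange A' y) = 0 ∧
    D.j.baseChange A' (D.π.baseChange A' y) = y := by
  rw [← D.baseChange_Φ₁] at h1
  rw [← D.baseChange_Φ₂] at h2
  rw [← D.baseChange_j, ← D.baseChange_π]
  exact ⟨(D.baseChange A').d_π_of_mem h2, (D.baseChange A').j_π_of_mem h1⟩

end BaseChange

end Fermat.Agent.Jac.P1Coh76.KerModel
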