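/-
Fermat/Agent/Jac/P1Coh76/Laurent.lean  (helper76)

JAC brick A1-gamma, layer 2: Laurent coordinates on the localisation of a finitely generated
projective `A[X]`-module, and the one-sided degree bound.
-/
import Mathlib

set_option autoImplicit false

open Polynomial LaurentPolynomial

namespace Fermat.Agent.Jac.P1Coh76.Laurent

variable {A : Type*} [CommRing A]

/-! ### `A`-linear truncation `A[T;T⁻¹] → A[X]` -/

theorem trunc_smul (a : A) (f : A[T;T⁻¹]) :
    LaurentPolynomial.trunc (a • f) = a • LaurentPolynomial.trunc f := by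
  induction f using LaurentPolynomial.induction_on' with
  | add p q hp hq => simp only [smul_add, map_add, hp, hq]
  | C_mul_T n b =>
    rw [LaurentPolynomial.smul_eq_C_mul, ← mul_assoc, ← map_mul, LaurentPolynomial.trunc_C_mul_T,
      LaurentPolynomial.trunc_C_mul_T]
    split_ifs
    · rw [Polynomial.smul_monomial, smul_eq_mul]
    · rw [smul_zero]

/-- `LaurentPolynomial.trunc` as an `A`-linear map. -/
noncomputable def truncL : A[T;T⁻¹] →ₗ[A] A[X] where
  toFun := LaurentPolynomial.trunc
  map_add' := map_add _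
  map_smul' a f := trunc_smul a f

@[simp] theorem truncL_toLaurent (f : A[X]) : truncL (Polynomial.toLaurent f) = f :=
  Polynomial.trunc_toLaurent f

theorem coeff_truncL (f : A[T;T⁻¹]) (j : ℕ) : (truncL f).coeff j = f.coeff (j : ℤ) := by
  induction f using LaurentPolynomial.induction_on' with
  | add p q hp hq => simp only [map_add, Polynomial.coeff_add, hp, hq, AddMonoidAlgebra.coeff_add,
      Finsupp.add_apply]
  | C_mul_T n b =>
    change (LaurentPolynomial.trunc (LaurentPolynomial.C b * T n)).coeff j = _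
    rw [LaurentPolynomial.trunc_C_mul_T, ← LaurentPolynomial.single_eq_C_mul_T,
      AddMonoidAlgebra.coeff_single]
    split_ifs with h
    · rw [Polynomial.coeff_monomial, Finsupp.single_apply]
      congr 1
      apply propext
      omega
    · rw [Polynomial.coeff_zero, Finsupp.single_apply, if_neg]
      omega

/-! ### Scalar tower `A → A[X] → A[T;T⁻¹]` -/

instance isScalarTower_laurent : IsScalarTower A A[X] A[T;T⁻¹] :=
  IsScalarTower.of_algebraMap_eq fun a => by
    rw [LaurentPolynomial.algebraMap_eq_toLaurent, ← Polynomial.C_eq_algebraMap,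
      Polynomial.toLaurent_C, LaurentPolynomial.C_eq_algebraMap]

theorem X_pow_smul_laurent (a : ℕ) (f : A[T;T⁻¹]) : (X ^ a : A[X]) • f = T (a : ℤ) * f := by
  rw [Algebra.smul_def, LaurentPolynomial.algebraMap_X_pow]

theorem coeff_T_mul (a : ℤ) (f : A[T;T⁻¹]) (j : ℤ) : (T a * f).coeff j = f.coeff (j - a) := by
  rw [LaurentPolynomial.T, AddMonoidAlgebra.coeff_single_mul_apply, one_mul]
  congr 1
  ring

/-! ### Truncation of vectors of polynomials -/

section Trunc

variable (A)

/-- The first `D + 1` coefficients of each component. -/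
noncomputable def rho (n D : ℕ) : (Fin n → A[X]) →ₗ[A] (Fin n → Fin (D + 1) → A) :=
  LinearMap.pi fun k => LinearMap.pi fun j => Polynomial.lcoeff A (j : ℕ) ∘ₗ LinearMap.proj k

/-- The vector of polynomials of degree `≤ D` with prescribed coefficients. -/
noncomputable def iota (n D : ℕ) : (Fin n → Fin (D + 1) → A) →ₗ[A] (Fin n → A[X]) :=
  LinearMap.pi fun k =>
    (∑ j : Fin (D + 1), Polynomial.monomial (j : ℕ) ∘ₗ LinearMap.proj j) ∘ₗ LinearMap.proj k

variable {A}

@[simp] theorem rho_apply (n D : ℕ) (w : Fin n → A[X]) (k : Fin n) (j : Fin (D + 1)) :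
    rho A n D w k j = (w k).coeff j := rfl

theorem iota_apply (n D : ℕ) (c : Fin n → Fin (D + 1) → A) (k : Fin n) :
    iota A n D c k = ∑ j : Fin (D + 1), Polynomial.monomial (j : ℕ) (c k j) := by
  simp [iota]

theorem coeff_iota (n D : ℕ) (c : Fin n → Fin (D + 1) → A) (k : Fin n) (j : ℕ) :
    (iota A n D c k).coeff j = if h : j < D + 1 then c k ⟨j, h⟩ else 0 := by
  rw [iota_apply, Polynomial.finsetSum_coeff]
  simp only [Polynomial.coeff_monomial]
  split_ifs with h
  · rw [Finset.sum_eq_single (⟨j, h⟩ : Fin (D + 1))]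
    · simp
    · intro b _ hb
      rw [if_neg]
      intro hbj
      exact hb (Fin.ext hbj)
    · simp
  · apply Finset.sum_eq_zero
    intro b _
    rw [if_neg]
    intro hbj
    exact h (hbj ▸ b.2)

theorem rho_comp_iota (n D : ℕ) : rho A n D ∘ₗ iota A n D = LinearMap.id := by
  refine LinearMap.ext fun c => funext fun k => funext fun j => ?_
  simp only [LinearMap.coe_comp, Function.comp_apply, LinearMap.id_coe, id_eq, rho_apply,
    coeff_iota]
  rw [dif_pos j.2]

/-- If all coefficients above `D` vanish, truncation does nothing. -/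
theorem iota_rho_of_bounded {n D : ℕ} {w : Fin n → A[X]}
    (h : ∀ k, ∀ j : ℕ, D < j → (w k).coeff j = 0) : iota A n D (rho A n D w) = w := by
  ext k j
  rw [coeff_iota]
  split_ifs with hj
  · simp
  · exact (h k j (by omega)).symm

end Trunc

/-! ### Laurent coordinates on the localisation -/

section Coordinates

variable {U V : Type*} [AddCommGroup U] [AddCommGroup V] [Module A[X] U] [Module A[X] V]
  (r : U →ₗ[A[X]] V) [IsLocalizedModule (Submonoid.powers (X : A[X])) r]
  {n : ℕ} (i : U →ₗ[A[X]] (Fin n → A[X])) (p : (Fin n → A[X]) →ₗ[A[X]] U)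

variable (A) in
/-- Componentwise `toLaurent`. -/
noncomputable def kappa (n : ℕ) : (Fin n → A[X]) →ₗ[A[X]] (Fin n → A[T;T⁻¹]) :=
  LinearMap.pi fun k => Algebra.linearMap A[X] A[T;T⁻¹] ∘ₗ LinearMap.proj k

instance isLocalizedModule_kappa (n : ℕ) :
    IsLocalizedModule (Submonoid.powers (X : A[X])) (kappa A n) := by
  unfold kappa
  infer_instance

@[simp] theorem kappa_apply (n : ℕ) (w : Fin n → A[X]) (k : Fin n) :
    kappa A n w k = Polynomial.toLaurent (w k) := rfl

/-- Laurent coordinates on the localisation `V` of `U`. -/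
noncomputable def i01 : V →ₗ[A[X]] (Fin n → A[T;T⁻¹]) :=
  IsLocalizedModule.map (Submonoid.powers (X : A[X])) r (kappa A n) i

/-- The retraction of the Laurent coordinates. -/
noncomputable def p01 : (Fin n → A[T;T⁻¹]) →ₗ[A[X]] V :=
  IsLocalizedModule.map (Submonoid.powers (X : A[X])) (kappa A n) r p

theorem i01_r (x : U) : i01 r i (r x) = kappa A n (i x) :=
  IsLocalizedModule.map_apply _ _ _ _ _

theorem p01_kappa (w : Fin n → A[X]) : p01 r p (kappa A n w) = r (p w) :=
  IsLocalizedModule.map_apply _ _ _ _ _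

theorem p01_comp_i01 (h : p ∘ₗ i = LinearMap.id) : p01 r p ∘ₗ i01 r i = LinearMap.id := by
  unfold p01 i01
  rw [← IsLocalizedModule.map_comp', h, IsLocalizedModule.map_id]

/-- Dividing by `X ^ a` shifts the Laurent coordinates. -/
theorem coeff_i01_of_smul_eq {z y : V} {a : ℕ} (h : (X ^ a : A[X]) • z = y) (k : Fin n) (j : ℤ) :
    (i01 r i z k).coeff j = (i01 r i y k).coeff (j + a) := by
  rw [← h, map_smul, Pi.smul_apply, X_pow_smul_laurent, coeff_T_mul]
  congr 1
  ring

end Coordinates

/-! ### The one-sided degree bound -/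

/-- An upper bound for the exponents occurring in a Laurent polynomial. -/
noncomputable def topDeg (f : A[T;T⁻¹]) : ℕ := f.coeff.support.sup Int.toNat

theorem coeff_eq_zero_of_topDeg_lt {f : A[T;T⁻¹]} {j : ℤ} (h : (topDeg f : ℤ) < j) :
    f.coeff j = 0 := by
  by_contra hne
  have hmem : j ∈ f.coeff.support := Finsupp.mem_support_iff.mpr hne
  have h1 : Int.toNat j ≤ topDeg f := Finset.le_sup (f := Int.toNat) hmem
  have h2 : j ≤ (Int.toNat j : ℤ) := Int.self_le_toNat j
  omega

/-- Componentwise truncation of Laurent vectors. -/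
noncomputable def truncVec (n : ℕ) : (Fin n → A[T;T⁻¹]) →ₗ[A] (Fin n → A[X]) :=
  LinearMap.pi fun k => truncL ∘ₗ LinearMap.proj k

@[simp] theorem truncVec_apply (n : ℕ) (w : Fin n → A[T;T⁻¹]) (k : Fin n) :
    truncVec n w k = truncL (w k) := rfl

theorem truncVec_kappa (n : ℕ) (w : Fin n → A[X]) : truncVec n (kappa A n w) = w := by
  funext k
  simp

section Bound

variable {U V W : Type*} [AddCommGroup U] [AddCommGroup V] [AddCommGroup W]
  [Module A[X] U] [Module A[X] V] [Module A[X] W]
  [Module A V] [Module A W] [IsScalarTower A A[X] V] [IsScalarTower A A[X] W]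
  (r : U →ₗ[A[X]] V) [IsLocalizedModule (Submonoid.powers (X : A[X])) r]
  {n : ℕ} (i : U →ₗ[A[X]] (Fin n → A[X]))

/-- The `A`-submodule of the localisation `V` consisting of the elements all of whose Laurent
coordinates have no terms of exponent `> D`. -/
def bddSub (D : ℕ) : Submodule A V where
  carrier := {v | ∀ k, ∀ j : ℤ, (D : ℤ) < j → (i01 r i v k).coeff j = 0}
  add_mem' := by
    intro v v' hv hv' k j hj
    rw [map_add, Pi.add_apply, AddMonoidAlgebra.coeff_add, Finsupp.add_apply, hv k j hj,
      hv' k j hj, add_zero]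
  zero_mem' := by
    intro k j _
    rw [map_zero]
    rfl
  smul_mem' := by
    intro a v hv k j hj
    have : i01 r i (a • v) = a • i01 r i v := LinearMap.map_smul_of_tower _ a v
    rw [this, Pi.smul_apply, AddMonoidAlgebra.coeff_smul, Finsupp.smul_apply, hv k j hj,
      smul_zero]

theorem mem_bddSub {D : ℕ} {v : V} :
    v ∈ bddSub r i D ↔ ∀ k, ∀ j : ℤ, (D : ℤ) < j → (i01 r i v k).coeff j = 0 := Iff.rfl

theorem mem_bddSub_of_X_smul {D : ℕ} {z : V} (h : (X : A[X]) • z ∈ bddSub r i D) :
    z ∈ bddSub r i D := by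
  intro k j hj
  have h1 : (X ^ 1 : A[X]) • z = (X : A[X]) • z := by rw [pow_one]
  rw [coeff_i01_of_smul_eq r i h1 k j]
  exact h k _ (by push_cast; omega)

variable (r' : W →ₗ[A] V)

omit [IsScalarTower A A[X] W] in
theorem r'_X_pow_smul_mem (hr' : ∀ x : W, (X : A[X]) • r' ((X : A[X]) • x) = r' x)
    {D : ℕ} {x : W} (hx : r' x ∈ bddSub r i D) (b : ℕ) :
    r' ((X ^ b : A[X]) • x) ∈ bddSub r i D := by
  induction b with
  | zero => simpa using hx
  | succ b ih =>
    apply mem_bddSub_of_X_smul
    rw [pow_succ', mul_smul, hr']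
    exact ih

/-- The `A[X]`-submodule of `W` of elements mapping into `bddSub`. -/
def pullSub (hr' : ∀ x : W, (X : A[X]) • r' ((X : A[X]) • x) = r' x) (D : ℕ) :
    Submodule A[X] W where
  carrier := {x | r' x ∈ bddSub r i D}
  add_mem' := by
    intro x y hx hy
    show r' (x + y) ∈ bddSub r i D
    rw [map_add]
    exact add_mem hx hy
  zero_mem' := by
    show r' 0 ∈ bddSub r i D
    rw [map_zero]
    exact zero_mem _
  smul_mem' := by
    intro q x hx
    show r' (q • x) ∈ bddSub r i D
    induction q using Polynomial.induction_on' with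
    | add p q hp hq =>
      rw [add_smul, map_add]
      exact add_mem hp hq
    | monomial b a =>
      rw [← Polynomial.C_mul_X_pow_eq_monomial, mul_smul, Polynomial.C_eq_algebraMap,
        algebraMap_smul, map_smul]
      exact Submodule.smul_mem _ _ (r'_X_pow_smul_mem r i r' hr' hx b)

/-- **One-sided degree bound.** If `W` is finitely generated over `A[X]`, where `X` acts on `W`
as the inverse of the action of `X` on the localisation `V`, then the Laurent coordinates of
all elements of the image of `W` in `V` have exponents bounded above by a fixed `D`. -/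
theorem exists_bound (hr' : ∀ x : W, (X : A[X]) • r' ((X : A[X]) • x) = r' x)
    [Module.Finite A[X] W] : ∃ D : ℕ, ∀ x : W, r' x ∈ bddSub r i D := by
  obtain ⟨S, hS⟩ := (Module.Finite.fg_top : (⊤ : Submodule A[X] W).FG)
  refine ⟨S.sup fun s => Finset.univ.sup fun k => topDeg (i01 r i (r' s) k), fun x => ?_⟩
  set D := S.sup fun s => Finset.univ.sup fun k => topDeg (i01 r i (r' s) k) with hD
  have hle : Submodule.span A[X] (S : Set W) ≤ pullSub r i r' hr' D := by
    rw [Submodule.span_le]
    intro s hs k j hj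
    apply coeff_eq_zero_of_topDeg_lt
    have h1 : topDeg (i01 r i (r' s) k) ≤ Finset.univ.sup fun k => topDeg (i01 r i (r' s) k) :=
      Finset.le_sup (f := fun k => topDeg (i01 r i (r' s) k)) (Finset.mem_univ k)
    have h2 : (Finset.univ.sup fun k => topDeg (i01 r i (r' s) k)) ≤ D :=
      Finset.le_sup (f := fun s => Finset.univ.sup fun k => topDeg (i01 r i (r' s) k)) hs
    have : (topDeg (i01 r i (r' s) k) : ℤ) ≤ D := by exact_mod_cast h1.trans h2
    omega
  have : x ∈ pullSub r i r' hr' D := hle (hS ▸ Submodule.mem_top)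
  exact this

omit [Module A[X] W] [Module A W] [IsScalarTower A A[X] W] [AddCommGroup W]

/-- The map witnessing the one-sided bound: the part of the Laurent coordinates of exponent
`> D`, as an `A`-linear map. -/
noncomputable def Psi (D : ℕ) : V →ₗ[A] (Fin n → A[X]) :=
  (LinearMap.id - iota A n D ∘ₗ rho A n D) ∘ₗ truncVec n ∘ₗ (i01 r i).restrictScalars A

theorem Psi_r (D : ℕ) (x : U) : Psi r i D (r x) = i x - iota A n D (rho A n D (i x)) := by
  simp only [Psi, LinearMap.coe_comp, Function.comp_apply, LinearMap.coe_restrictScalars, i01_r,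
    truncVec_kappa, LinearMap.sub_apply, LinearMap.id_coe, id_eq]

theorem Psi_eq_zero_of_mem {D : ℕ} {v : V} (hv : v ∈ bddSub r i D) : Psi r i D v = 0 := by
  simp only [Psi, LinearMap.coe_comp, Function.comp_apply, LinearMap.coe_restrictScalars,
    LinearMap.sub_apply, LinearMap.id_coe, id_eq]
  rw [sub_eq_zero]
  symm
  apply iota_rho_of_bounded
  intro k j hj
  rw [truncVec_apply, coeff_truncL]
  exact hv k j (by exact_mod_cast hj)

end Bound

end Fermat.Agent.Jac.P1Coh76.Laurent
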