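/-
Fermat/Agent/Jac/P1Coh76/Main.lean  (helper76)

JAC brick A1-gamma, layer 3: the matrix model of the Čech complex of a two-chart module which is
finitely generated projective over the line.
-/
import Fermat.Agent.Jac.Core
import Fermat.Agent.Jac.P1Coh76.KerModel
import Fermat.Agent.Jac.P1Coh76.Laurent

set_option autoImplicit false

universe u

open Polynomial LaurentPolynomial TensorProduct

namespace Fermat.Agent.Jac.P1Coh76.Main

open Fermat.Agent.Jac.P1Coh76.Laurent

/-! ### Localisation of `AEval` modules -/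

section AEvalLoc

variable {A : Type*} [CommRing A] {R : Type*} [CommRing R] [Algebra A R]
  {N N' : Type*} [AddCommGroup N] [AddCommGroup N'] [Module R N] [Module R N'] [Module A N]
  [Module A N'] [IsScalarTower A R N] [IsScalarTower A R N'] (t : R) (f : N →ₗ[R] N')

/-- An `R`-linear map as an `A[X]`-linear map between the `AEval` modules (`X` acting as `t`). -/
noncomputable def aevalMap : Module.AEval A N t →ₗ[A[X]] Module.AEval A N' t :=
  LinearMap.ofAEval t ((Module.AEval.of A N' t).toLinearMap ∘ₗ f.restrictScalars A) (fun m => by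
    simp [Module.AEval.X_smul_of])

@[simp] theorem aevalMap_of (x : N) :
    aevalMap t f (Module.AEval.of A N t x) = Module.AEval.of A N' t (f x) := by
  simp [aevalMap, LinearMap.ofAEval]

instance isLocalizedModule_aevalMap [IsLocalizedModule (Submonoid.powers t) f] :
    IsLocalizedModule (Submonoid.powers (X : A[X])) (aevalMap (A := A) t f) where
  map_units := by
    rintro ⟨_, k, rfl⟩
    rw [Module.End.isUnit_iff]
    have hu : Function.Bijective (fun z : N' => t ^ k • z) :=
      (Module.End.isUnit_iff _).mp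
        (IsLocalizedModule.map_units f (⟨t ^ k, k, rfl⟩ : Submonoid.powers t))
    constructor
    · intro x y hxy
      obtain ⟨x, rfl⟩ := (Module.AEval.of A N' t).surjective x
      obtain ⟨y, rfl⟩ := (Module.AEval.of A N' t).surjective y
      simp only [Module.algebraMap_end_apply, Module.AEval.X_pow_smul_of] at hxy
      have := (Module.AEval.of A N' t).injective hxy
      rw [hu.1 this]
    · intro y
      obtain ⟨y, rfl⟩ := (Module.AEval.of A N' t).surjective y
      obtain ⟨z, hz⟩ := hu.2 y
      refine ⟨Module.AEval.of A N' t z, ?_⟩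
      simp only [Module.algebraMap_end_apply, Module.AEval.X_pow_smul_of]
      rw [← hz]
  surj := by
    intro y
    obtain ⟨y, rfl⟩ := (Module.AEval.of A N' t).surjective y
    obtain ⟨⟨x, ⟨_, k, rfl⟩⟩, hx⟩ := IsLocalizedModule.surj (Submonoid.powers t) f y
    refine ⟨⟨Module.AEval.of A N t x, ⟨X ^ k, k, rfl⟩⟩, ?_⟩
    simp only [Submonoid.smul_def] at hx ⊢
    rw [Module.AEval.X_pow_smul_of, hx, aevalMap_of]
  exists_of_eq := by
    intro x y hxy
    obtain ⟨x, rfl⟩ := (Module.AEval.of A N t).surjective x
    obtain ⟨y, rfl⟩ := (Module.AEval.of A N t).surjective y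
    rw [aevalMap_of, aevalMap_of] at hxy
    obtain ⟨⟨_, k, rfl⟩, hk⟩ := IsLocalizedModule.exists_of_eq (S := Submonoid.powers t)
      ((Module.AEval.of A N' t).injective hxy)
    refine ⟨⟨X ^ k, k, rfl⟩, ?_⟩
    simp only [Submonoid.smul_def] at hk ⊢
    rw [Module.AEval.X_pow_smul_of, Module.AEval.X_pow_smul_of, hk]

end AEvalLoc

/-! ### One half of the coordinates: the chart `N`, and the bound for the other chart `N'` -/

section Half

variable {A : Type*} [CommRing A] {R R' R01 : Type*} [CommRing R] [CommRing R'] [CommRing R01]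
  [Algebra A R] [Algebra A R'] [Algebra R R01] [Algebra R' R01]
  {N N' N01 : Type*} [AddCommGroup N] [AddCommGroup N'] [AddCommGroup N01]
  [Module A N] [Module R N] [IsScalarTower A R N]
  [Module A N'] [Module R' N'] [IsScalarTower A R' N']
  [Module A N01] [Module R N01] [Module R' N01] [Module R01 N01]
  [IsScalarTower A R N01] [IsScalarTower A R' N01]
  [IsScalarTower R R01 N01] [IsScalarTower R' R01 N01]

omit [Algebra A R] [Algebra A R'] in
theorem smul_smul_eq_self {t : R} {s : R'}
    (hts : algebraMap R R01 t * algebraMap R' R01 s = 1) (y : N01) : t • s • y = y := by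
  rw [← algebraMap_smul R01 t, ← algebraMap_smul R01 s, smul_smul, hts, one_smul]

/-- **Half of the coordinate data.**  `N` is finitely generated projective over `A[t]`, `N01` is
its localisation at `t`, and `N'` is finitely generated over `A[s]` where `s` acts on `N01` as the
inverse of `t`.  Then there are `A`-linear coordinates `i, p` on `N` with values in `A[X]ⁿ`,
Laurent coordinates `i', p'` on `N01`, and an `A`-linear map `Ψ` on `N01` computing the
coefficients of degree `> D` of the coordinates on `N` and vanishing on the image of `N'`. -/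
theorem exists_half (t : R) (s : R') (hts : algebraMap R R01 t * algebraMap R' R01 s = 1)
    (f : N →ₗ[R] N01) [IsLocalizedModule (Submonoid.powers t) f] (g : N' →ₗ[R'] N01)
    [Module.Finite A[X] (Module.AEval A N t)] [Module.Projective A[X] (Module.AEval A N t)]
    [Module.Finite A[X] (Module.AEval A N' s)] :
    ∃ (n D : ℕ) (i : N →ₗ[A] (Fin n → A[X])) (p : (Fin n → A[X]) →ₗ[A] N)
      (i' : N01 →ₗ[A] (Fin n → A[T;T⁻¹])) (p' : (Fin n → A[T;T⁻¹]) →ₗ[A] N01)
      (Ψ : N01 →ₗ[A] (Fin n → A[X])),
      p ∘ₗ i = LinearMap.id ∧ p' ∘ₗ i' = LinearMap.id ∧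
      (∀ x, Ψ (f x) = i x - iota A n D (rho A n D (i x))) ∧ (∀ x', Ψ (g x') = 0) := by
  obtain ⟨n, pX, iX, -, -, hpi⟩ :=
    Module.Finite.exists_comp_eq_id_of_projective A[X] (Module.AEval A N t)
  let rX : Module.AEval A N t →ₗ[A[X]] Module.AEval A N01 t := aevalMap (A := A) t f
  let r' : Module.AEval A N' s →ₗ[A] Module.AEval A N01 t :=
    (Module.AEval.of A N01 t).toLinearMap ∘ₗ g.restrictScalars A ∘ₗ
      (Module.AEval.of A N' s).symm.toLinearMap
  have hr' : ∀ x, (X : A[X]) • r' ((X : A[X]) • x) = r' x := by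
    intro x
    obtain ⟨x, rfl⟩ := (Module.AEval.of A N' s).surjective x
    simp only [r', LinearMap.coe_comp, LinearEquiv.coe_coe, Function.comp_apply,
      Module.AEval.X_smul_of, LinearEquiv.symm_apply_apply, LinearMap.coe_restrictScalars,
      map_smul]
    rw [smul_smul_eq_self hts]
  obtain ⟨D, hD⟩ := exists_bound rX iX r' hr'
  refine ⟨n, D, iX.restrictScalars A ∘ₗ (Module.AEval.of A N t).toLinearMap,
    (Module.AEval.of A N t).symm.toLinearMap ∘ₗ pX.restrictScalars A,
    (i01 rX iX).restrictScalars A ∘ₗ (Module.AEval.of A N01 t).toLinearMap,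
    (Module.AEval.of A N01 t).symm.toLinearMap ∘ₗ (p01 rX pX).restrictScalars A,
    Psi rX iX D ∘ₗ (Module.AEval.of A N01 t).toLinearMap, ?_, ?_, ?_, ?_⟩
  · refine LinearMap.ext fun x => ?_
    have := LinearMap.congr_fun hpi (Module.AEval.of A N t x)
    simp only [LinearMap.coe_comp, Function.comp_apply, LinearMap.id_coe, id_eq] at this
    simp [this]
  · refine LinearMap.ext fun x => ?_
    have := LinearMap.congr_fun (p01_comp_i01 rX iX pX hpi) (Module.AEval.of A N01 t x)
    simp only [LinearMap.coe_comp, Function.comp_apply, LinearMap.id_coe, id_eq] at this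
    simp [this]
  · intro x
    have := Psi_r rX iX D (Module.AEval.of A N t x)
    simpa [rX] using this
  · intro x'
    have := Psi_eq_zero_of_mem rX iX (hD (Module.AEval.of A N' s x'))
    simpa [r'] using this

end Half

/-! ### The kernel model of the Čech differential of a two-chart module -/

section Model

variable {A R0 R1 R01 : Type u} [CommRing A] [CommRing R0] [CommRing R1] [CommRing R01]
  [Algebra A R0] [Algebra A R1] [Algebra A R01] [Algebra R0 R01] [Algebra R1 R01]
  [IsScalarTower A R0 R01] [IsScalarTower A R1 R01]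

omit [IsScalarTower A R0 R01] [IsScalarTower A R1 R01] in
theorem d_apply (L : QC2 A R0 R1 R01) (x : L.N0 × L.N1) : L.d x = L.r0 x.1 - L.r1 x.2 := by
  simp [QC2.d, sub_eq_add_neg]

/-- **Kernel model of the Čech complex.**  For a two-chart module which is finitely generated
projective over the line, the Čech differential `d : N0 × N1 → N01` has a kernel model with
finite free truncated coordinate module `P`, and free coordinate modules `F`, `G`. -/
theorem exists_data (c : TwoChart A R0 R1 R01) (L : QC2 A R0 R1 R01)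
    (hf : L.FiniteOverLine c) (hp : L.ProjOverLine c) :
    ∃ (n0 n1 D0 D1 : ℕ), Nonempty (KerModel.Data L.d ((Fin n0 → A[X]) × (Fin n1 → A[X]))
      (Fin n0 → A[T;T⁻¹]) ((Fin n0 → Fin (D0 + 1) → A) × (Fin n1 → Fin (D1 + 1) → A))) := by
  have := c.away0
  have := c.away1
  have : IsLocalizedModule (Submonoid.powers c.t) L.r0 :=
    (isLocalizedModule_iff_isBaseChange (Submonoid.powers c.t) R01 L.r0).mpr L.bc0
  have : IsLocalizedModule (Submonoid.powers c.s) L.r1 :=
    (isLocalizedModule_iff_isBaseChange (Submonoid.powers c.s) R01 L.r1).mpr L.bc1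
  have := hf.fin0
  have := hf.fin1
  have := hp.proj0
  have := hp.proj1
  obtain ⟨n0, D0, i0, p0, i', p', Ψ0, h0, h', hΨ0, hΨ0'⟩ :=
    exists_half (A := A) (R01 := R01) c.t c.s c.ts L.r0 L.r1
  obtain ⟨n1, D1, i1, p1, -, -, Ψ1, h1, -, hΨ1, hΨ1'⟩ :=
    exists_half (A := A) (R01 := R01) c.s c.t (by rw [mul_comm]; exact c.ts) L.r1 L.r0
  refine ⟨n0, n1, D0, D1, ⟨{
    i := i0.prodMap i1
    p := p0.prodMap p1
    p_i := ?_
    i' := i'
    p' := p'
    p'_i' := h'
    ι := (iota A n0 D0).prodMap (iota A n1 D1)
    ρ := (rho A n0 D0).prodMap (rho A n1 D1)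
    ρ_ι := ?_
    Ψ := Ψ0.prod (-Ψ1)
    bound := ?_ }⟩⟩
  · rw [LinearMap.prodMap_comp, h0, h1, LinearMap.prodMap_id]
  · rw [LinearMap.prodMap_comp, rho_comp_iota, rho_comp_iota, LinearMap.prodMap_id]
  · refine LinearMap.ext fun x => ?_
    obtain ⟨x0, x1⟩ := x
    simp only [LinearMap.coe_comp, Function.comp_apply, LinearMap.sub_apply, LinearMap.id_coe,
      id_eq, LinearMap.prodMap_apply, LinearMap.prod_apply, Function.prod, LinearMap.neg_apply,
      d_apply, map_sub, hΨ0, hΨ0', hΨ1, hΨ1', Prod.mk_sub_mk, sub_zero, neg_zero, zero_sub,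
      neg_neg]

end Model

end Fermat.Agent.Jac.P1Coh76.Main
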