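/-
Fermat/Agent/Jac/P1Coh76/SplitKer.lean  (helper76)

JAC brick A1b, abstract part: kernels of split surjections.

Let `d : M → N` be a surjective linear map onto a projective module.  Then `ker d` is a direct
summand of `M`, its formation commutes with every base change, and it is finitely generated as
soon as it is contained in the image of a finitely generated module.
-/
import Mathlib

set_option autoImplicit false

open TensorProduct

namespace Fermat.Agent.Jac.P1Coh76.SplitKer

variable {A : Type*} [CommRing A] {M N : Type*} [AddCommGroup M] [AddCommGroup N]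
  [Module A M] [Module A N] (d : M →ₗ[A] N)

/-- The retraction `M → ker d` attached to a section `σ` of `d`. -/
def retr (σ : N →ₗ[A] M) (hσ : d ∘ₗ σ = LinearMap.id) : M →ₗ[A] LinearMap.ker d :=
  LinearMap.codRestrict _ (LinearMap.id - σ ∘ₗ d) (fun x => by
    have h : d (σ (d x)) = d x := LinearMap.congr_fun hσ (d x)
    simp [h])

theorem subtype_retr (σ : N →ₗ[A] M) (hσ : d ∘ₗ σ = LinearMap.id) :
    (LinearMap.ker d).subtype ∘ₗ retr d σ hσ = LinearMap.id - σ ∘ₗ d := by
  refine LinearMap.ext fun x => ?_
  simp [retr]

theorem retr_subtype (σ : N →ₗ[A] M) (hσ : d ∘ₗ σ = LinearMap.id) :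
    retr d σ hσ ∘ₗ (LinearMap.ker d).subtype = LinearMap.id := by
  refine LinearMap.ext fun x => Subtype.ext ?_
  have hx : d x.1 = 0 := x.2
  simp [retr, hx]

theorem exists_section [Module.Projective A N] (hd : Function.Surjective d) :
    ∃ σ : N →ₗ[A] M, d ∘ₗ σ = LinearMap.id :=
  Module.projective_lifting_property d LinearMap.id hd

/-- The kernel of a surjection onto a projective module is a retract of the source. -/
theorem exists_retr [Module.Projective A N] (hd : Function.Surjective d) :
    ∃ (ϖ : M →ₗ[A] LinearMap.ker d) (σ : N →ₗ[A] M),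
      ϖ ∘ₗ (LinearMap.ker d).subtype = LinearMap.id ∧
      (LinearMap.ker d).subtype ∘ₗ ϖ = LinearMap.id - σ ∘ₗ d := by
  obtain ⟨σ, hσ⟩ := exists_section d hd
  exact ⟨retr d σ hσ, σ, retr_subtype d σ hσ, subtype_retr d σ hσ⟩

/-- If `M` is projective, so is the kernel of a surjection from `M` onto a projective module. -/
theorem projective_ker [Module.Projective A N] [Module.Projective A M]
    (hd : Function.Surjective d) : Module.Projective A (LinearMap.ker d) := by
  obtain ⟨ϖ, σ, h1, -⟩ := exists_retr d hd
  exact Module.Projective.of_split _ _ h1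

/-- If the kernel of a surjection onto a projective module is contained in the image of a finitely
generated module, it is finitely generated. -/
theorem finite_ker [Module.Projective A N] (hd : Function.Surjective d)
    {P : Type*} [AddCommGroup P] [Module A P] [Module.Finite A P] (π : P →ₗ[A] M)
    (hπ : ∀ x, d x = 0 → ∃ y, π y = x) : Module.Finite A (LinearMap.ker d) := by
  obtain ⟨ϖ, σ, h1, -⟩ := exists_retr d hd
  refine Module.Finite.of_surjective (ϖ ∘ₗ π) (fun x => ?_)
  obtain ⟨y, hy⟩ := hπ x.1 x.2
  refine ⟨y, ?_⟩
  have := LinearMap.congr_fun h1 x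
  simp only [LinearMap.coe_comp, Function.comp_apply, LinearMap.id_coe, id_eq,
    Submodule.coe_subtype] at this ⊢
  rw [hy, this]

variable (A' : Type*) [CommRing A'] [Algebra A A']

/-- Base change of the inclusion of the kernel of a split surjection is injective. -/
theorem baseChange_subtype_injective [Module.Projective A N] (hd : Function.Surjective d) :
    Function.Injective ((LinearMap.ker d).subtype.baseChange A') := by
  obtain ⟨ϖ, σ, h1, -⟩ := exists_retr d hd
  have h : ϖ.baseChange A' ∘ₗ (LinearMap.ker d).subtype.baseChange A' = LinearMap.id := by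
    rw [← LinearMap.baseChange_comp, h1, LinearMap.baseChange_id]
  intro x y hxy
  have hx := LinearMap.congr_fun h x
  have hy := LinearMap.congr_fun h y
  simp only [LinearMap.coe_comp, Function.comp_apply, LinearMap.id_coe, id_eq] at hx hy
  rw [← hx, ← hy, hxy]

/-- The kernel of the base change of a split surjection is the base change of the kernel. -/
theorem exists_of_baseChange_eq_zero [Module.Projective A N] (hd : Function.Surjective d)
    {x : A' ⊗[A] M} (hx : d.baseChange A' x = 0) :
    ∃ z : A' ⊗[A] LinearMap.ker d, (LinearMap.ker d).subtype.baseChange A' z = x := by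
  obtain ⟨ϖ, σ, -, h2⟩ := exists_retr d hd
  refine ⟨ϖ.baseChange A' x, ?_⟩
  have h : (LinearMap.ker d).subtype.baseChange A' ∘ₗ ϖ.baseChange A' =
      LinearMap.id - σ.baseChange A' ∘ₗ d.baseChange A' := by
    rw [← LinearMap.baseChange_comp, h2, LinearMap.baseChange_sub, LinearMap.baseChange_id,
      LinearMap.baseChange_comp]
  have := LinearMap.congr_fun h x
  simp only [LinearMap.coe_comp, Function.comp_apply, LinearMap.sub_apply, LinearMap.id_coe,
    id_eq, hx, map_zero, sub_zero] at this
  exact this

end Fermat.Agent.Jac.P1Coh76.SplitKer
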